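import Fermat.Agent.MW.Geo.Setup
import Fermat.Agent.MW.Eng.Defs
import Fermat.Agent.MW.Loc.Wedge

/-!
# MW / DICT 1: the dictionary between the curve (`Setup`, `Coord`) and the abstract engine (`MW/Eng`, `MW/Loc`).

Coordinates `Φ.lin n : ℚ̄^(M n) ≃ V n`; the multiplication `V n × V n' → V (n + n')` is `bil (Φ.scQ n n')` (RATIONAL structure
constants); evaluation vectors `Φ.X n Q` are multiplicative functionals; Galois action.
No geometry beyond `ord`/`ev` calculus.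
-/

set_option autoImplicit false

namespace Fermat.Agent.MW

open AlgebraicCurve Fermat.Agent.Lib.RR Fermat.Agent.Lib.PlaceEval

variable {F : Type*} [Field F] [Algebra Qb F] [IsFF Qb F] {S : Setup F} (Φ : Coord S)

theorem Coord_isGalois_aux (inst : Algebra ℚ (AlgebraicClosure ℚ)) :
    @IsGalois ℚ _ (AlgebraicClosure ℚ) _ inst := by
  have h : inst = AlgebraicClosure.instAlgebra ℚ := Subsingleton.elim _ _
  rw [h]
  infer_instance

/-- An element of `ℚ̄` fixed by the whole Galois group is rational. -/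
theorem exists_rat_of_fixed {a : Qb} (h : ∀ σ : GQ, σ a = a) : ∃ q : ℚ, algebraMap ℚ Qb q = a := by
  have hG : IsGalois ℚ Qb := Coord_isGalois_aux inferInstance
  exact (InfiniteGalois.mem_range_algebraMap_iff_fixed a).2 h

/-- Evaluation is Galois equivariant (as `S19.Weil.ev_smul`, for `Lib.PlaceEval.ev`; use `ev_eq_iff`,
`SemilinearAut.ord_smul`, `SemilinearAut.smul_algebraMap`). -/
theorem ev_smul_smul (g : SemilinearAut Qb F) (P : Place Qb F) (f : F) :
    ev (g • P) (g • f) = SemilinearAut.baseAut g (ev P f) := by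
  by_cases hf : 0 ≤ P.ord f
  · have hgf : 0 ≤ (g • P).ord (g • f) := by rw [SemilinearAut.ord_smul]; exact hf
    rw [ev_eq_iff (g • P) hgf]
    rcases ord_sub_ev_pos P hf with h | h
    · left
      have h2 : g • f = g • algebraMap Qb F (ev P f) := congrArg (fun y => g • y) h
      rw [SemilinearAut.smul_algebraMap] at h2
      exact h2
    · right
      rw [← SemilinearAut.smul_algebraMap, ← smul_sub, SemilinearAut.ord_smul]
      exact h
  · have h1 : f ∉ P.toValuationSubring := fun h => hf ((mem_iff P).1 h)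
    have h2 : g • f ∉ (g • P).toValuationSubring := fun h => hf (by
      have := (mem_iff (g • P)).1 h
      rwa [SemilinearAut.ord_smul] at this)
    rw [ev_of_not_mem P h1, ev_of_not_mem _ h2, map_zero]

namespace Setup

theorem mem_V_iff (S : Setup F) (n : ℕ) (f : F) :
    f ∈ S.V n ↔ f = 0 ∨ ((∀ Q, Q ≠ S.inf → 0 ≤ Q.ord f) ∧ -(n : ℤ) ≤ S.inf.ord f) := by
  classical
  unfold V
  rw [mem_riemannRochSpace_iff]
  constructor
  · intro h
    by_cases hf : f = 0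
    · exact Or.inl hf
    · refine Or.inr ⟨fun Q hQ => ?_, ?_⟩
      · have h1 := (h Q).resolve_left hf
        rwa [Finsupp.single_apply, if_neg (fun h => hQ h.symm), neg_zero] at h1
      · have h1 := (h S.inf).resolve_left hf
        rwa [Finsupp.single_apply, if_pos rfl] at h1
  · rintro (hf | ⟨h1, h2⟩) Q
    · exact Or.inl hf
    · right
      by_cases hQ : Q = S.inf
      · rw [hQ, Finsupp.single_apply, if_pos rfl]
        exact h2
      · rw [Finsupp.single_apply, if_neg (fun h => hQ h.symm), neg_zero]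
        exact h1 Q hQ

theorem mul_mem_V (S : Setup F) {n n' : ℕ} {f f' : F} (hf : f ∈ S.V n) (hf' : f' ∈ S.V n') :
    f * f' ∈ S.V (n + n') :=
  S.V_mul_V_le n n' (Submodule.mul_mem_mul hf hf')

theorem mul_mem_W (S : Setup F) {n n' : ℕ} {Z Z' : Divisor Qb F} {f f' : F} (hf : f ∈ S.W n Z)
    (hf' : f' ∈ S.W n' Z') : f * f' ∈ S.W (n + n') (Z + Z') :=
  S.W_mul_W_le n n' Z Z' (Submodule.mul_mem_mul hf hf')

theorem Coord_smul_mem_W_aux (S : Setup F) (σ : GQ) {n : ℕ} {Z : Divisor Qb F} {f : F}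
    (hf : f ∈ S.W n Z) : S.ρ σ • f ∈ S.W n (S.ρ σ • Z) := by
  classical
  unfold W at hf ⊢
  rw [mem_riemannRochSpace_iff] at hf ⊢
  intro Q
  rcases hf ((S.ρ σ)⁻¹ • Q) with h | h
  · left
    rw [h, smul_zero]
  · right
    have h1 : Q.ord (S.ρ σ • f) = ((S.ρ σ)⁻¹ • Q).ord f := by
      conv_lhs => rw [← smul_inv_smul (S.ρ σ) Q]
      exact SemilinearAut.ord_smul _ _ _
    have h2 : (Finsupp.single S.inf (n : ℤ) : Divisor Qb F) Q =
        (Finsupp.single S.inf (n : ℤ) : Divisor Qb F) ((S.ρ σ)⁻¹ • Q) := by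
      rw [Finsupp.single_apply, Finsupp.single_apply]
      refine if_congr ?_ rfl rfl
      constructor
      · intro hQ
        rw [← hQ, eq_inv_smul_iff, S.inf_fixed]
      · intro hQ
        rw [eq_inv_smul_iff, S.inf_fixed] at hQ
        exact hQ
    rw [h1, Finsupp.sub_apply, h2, SemilinearAut.divisor_smul_apply]
    rwa [Finsupp.sub_apply] at h

theorem smul_mem_V (S : Setup F) (σ : GQ) {n : ℕ} {f : F} (hf : f ∈ S.V n) : S.ρ σ • f ∈ S.V n := by
  have h := S.Coord_smul_mem_W_aux σ (Z := 0) (by rw [S.W_zero]; exact hf)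
  rwa [smul_zero, S.W_zero] at h

theorem smul_mem_W (S : Setup F) (σ : GQ) {n : ℕ} {Z : Divisor Qb F} {f : F} (hf : f ∈ S.W n Z) :
    S.ρ σ • f ∈ S.W n (S.ρ σ • Z) :=
  S.Coord_smul_mem_W_aux σ hf

end Setup

namespace Coord

theorem lin_apply (n : ℕ) (a : Fin (Φ.M n) → Qb) : Φ.lin n a = ∑ i, a i • Φ.φ n i :=
  Fintype.linearCombination_apply Qb (Φ.φ n) a

theorem lin_injective (n : ℕ) : Function.Injective (Φ.lin n) :=
  (Φ.li n).fintypeLinearCombination_injective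

theorem range_lin (n : ℕ) : LinearMap.range (Φ.lin n) = S.V n := by
  rw [← Φ.span n]
  exact Fintype.range_linearCombination Qb (Φ.φ n)

theorem lin_mem_V (n : ℕ) (a : Fin (Φ.M n) → Qb) : Φ.lin n a ∈ S.V n := by
  rw [← Φ.range_lin n]
  exact LinearMap.mem_range_self _ _

theorem lin_crd {n : ℕ} {f : F} (hf : f ∈ S.V n) : Φ.lin n (Φ.crd n f) = f := by
  have h : f ∈ Submodule.span Qb (Set.range (Φ.φ n)) := by rw [Φ.span n]; exact hf
  have h1 := (Φ.li n).linearCombination_repr ⟨f, h⟩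
  rw [Finsupp.linearCombination_apply, Finsupp.sum_fintype _ _ (fun i => by simp)] at h1
  rw [lin_apply, crd, dif_pos h]
  exact h1

theorem crd_lin (n : ℕ) (a : Fin (Φ.M n) → Qb) : Φ.crd n (Φ.lin n a) = a :=
  Φ.lin_injective n (Φ.lin_crd (Φ.lin_mem_V n a))

/-- Semilinearity. -/
theorem smul_lin (σ : GQ) (n : ℕ) (a : Fin (Φ.M n) → Qb) :
    S.ρ σ • Φ.lin n a = Φ.lin n (fun i => σ (a i)) := by
  rw [lin_apply, lin_apply, Finset.smul_sum]
  refine Finset.sum_congr rfl fun i _ => ?_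
  rw [Algebra.smul_def, Algebra.smul_def, smul_mul', SemilinearAut.smul_algebraMap, S.base,
    Φ.fixed]

/-- Fixed elements of `V n` have rational coordinates. -/
theorem exists_rat_crd {n : ℕ} {f : F} (hf : f ∈ S.V n) (hfix : ∀ σ : GQ, S.ρ σ • f = f) :
    ∃ q : Fin (Φ.M n) → ℚ, Φ.crd n f = toQb q := by
  have h1 : ∀ i, ∀ σ : GQ, σ (Φ.crd n f i) = Φ.crd n f i := by
    intro i σ
    have h2 := Φ.smul_lin σ n (Φ.crd n f)
    rw [Φ.lin_crd hf, hfix σ] at h2
    have h3 : Φ.lin n (Φ.crd n f) = Φ.lin n (fun i => σ (Φ.crd n f i)) := by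
      rw [← h2, Φ.lin_crd hf]
    exact (congrFun (Φ.lin_injective n h3) i).symm
  choose q hq using fun i => exists_rat_of_fixed (h1 i)
  exact ⟨q, funext fun i => (hq i).symm⟩

/-- Elements with rational coordinates are fixed. -/
theorem smul_lin_toQb (σ : GQ) (n : ℕ) (q : Fin (Φ.M n) → ℚ) :
    S.ρ σ • Φ.lin n (toQb q) = Φ.lin n (toQb q) := by
  rw [smul_lin]
  congr 1
  funext i
  exact σ.commutes (q i)

/-- The structure constants are rational. -/
theorem sc_eq (n n' : ℕ) (i : Fin (Φ.M n)) (j : Fin (Φ.M n')) (l : Fin (Φ.M (n + n'))) :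
    Φ.sc n n' i j l = algebraMap ℚ Qb (Φ.scQ n n' i j l) := by
  have hi : Φ.φ n i ∈ S.V n := by
    rw [← Φ.span n]
    exact Submodule.subset_span (Set.mem_range_self i)
  have hj : Φ.φ n' j ∈ S.V n' := by
    rw [← Φ.span n']
    exact Submodule.subset_span (Set.mem_range_self j)
  obtain ⟨q, hq⟩ := Φ.exists_rat_crd (S.mul_mem_V hi hj) (fun σ => by
    rw [smul_mul', Φ.fixed, Φ.fixed])
  have h : ∃ q : ℚ, algebraMap ℚ Qb q = Φ.sc n n' i j l := ⟨q l, (congrFun hq l).symm⟩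
  rw [scQ, dif_pos h]
  exact h.choose_spec.symm

/-- `bil (scQ n n')` is the multiplication `V n × V n' → V (n + n')`. -/
theorem lin_bil (n n' : ℕ) (a : Fin (Φ.M n) → Qb) (b : Fin (Φ.M n') → Qb) :
    Φ.lin (n + n') (bil (Φ.scQ n n') a b) = Φ.lin n a * Φ.lin n' b := by
  have h1 : bil (Φ.scQ n n') a b = ∑ i, ∑ j, (a i * b j) • Φ.sc n n' i j := by
    funext l
    rw [bil_apply, Finset.sum_apply]
    refine Finset.sum_congr rfl fun i _ => ?_
    rw [Finset.sum_apply]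
    refine Finset.sum_congr rfl fun j _ => ?_
    rw [Pi.smul_apply, smul_eq_mul, sc_eq, mul_comm]
  have hφ : ∀ m (i : Fin (Φ.M m)), Φ.φ m i ∈ S.V m := by
    intro m i
    rw [← Φ.span m]
    exact Submodule.subset_span (Set.mem_range_self i)
  rw [h1, map_sum, lin_apply, lin_apply, Finset.sum_mul_sum]
  refine Finset.sum_congr rfl fun i _ => ?_
  rw [map_sum]
  refine Finset.sum_congr rfl fun j _ => ?_
  rw [map_smul, sc, Φ.lin_crd (S.mul_mem_V (hφ n i) (hφ n' j)), smul_mul_smul_comm]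

theorem bil_eq_mul (n n' : ℕ) (a : Fin (Φ.M n) → Qb) (b : Fin (Φ.M n') → Qb) :
    bil (Φ.scQ n n') a b = Φ.mul n n' a b := by
  funext l
  rw [bil_apply, mul]
  refine Finset.sum_congr rfl fun i _ => Finset.sum_congr rfl fun j _ => ?_
  rw [sc_eq, mul_comm]

/-- The multiplication is zero-free. -/
theorem bil_ne_zero (n n' : ℕ) (a : Fin (Φ.M n) → Qb) (b : Fin (Φ.M n') → Qb) (ha : a ≠ 0)
    (hb : b ≠ 0) : bil (Φ.scQ n n') a b ≠ 0 := by
  intro h
  have h1 := Φ.lin_bil n n' a b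
  rw [h, map_zero] at h1
  rcases mul_eq_zero.1 h1.symm with h2 | h2
  · exact ha (Φ.lin_injective n (by rw [h2, map_zero]))
  · exact hb (Φ.lin_injective n' (by rw [h2, map_zero]))

/-- `ev` of a finite sum of regular functions. -/
theorem dictC_ev_sum {ι : Type*} (Q : Place Qb F) (s : Finset ι) (f : ι → F)
    (hf : ∀ i ∈ s, 0 ≤ Q.ord (f i)) :
    0 ≤ Q.ord (∑ i ∈ s, f i) ∧ ev Q (∑ i ∈ s, f i) = ∑ i ∈ s, ev Q (f i) := by
  classical
  induction s using Finset.induction_on with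
  | empty => simp
  | insert j s hj ih =>
    have h1 := ih fun i hi => hf i (Finset.mem_insert_of_mem hi)
    have h2 := hf j (Finset.mem_insert_self j s)
    rw [Finset.sum_insert hj, Finset.sum_insert hj]
    refine ⟨(mem_iff Q).1 (add_mem ((mem_iff Q).2 h2) ((mem_iff Q).2 h1.1)), ?_⟩
    rw [ev_add Q h2 h1.1, h1.2]

theorem dictC_phi_mem_V (n : ℕ) (i : Fin (Φ.M n)) : Φ.φ n i ∈ S.V n := by
  rw [← Φ.span n]
  exact Submodule.subset_span ⟨i, rfl⟩

theorem dictC_ord_triv_mul (n : ℕ) (Q : Place Qb F) {f : F} (hf : f ∈ S.V n) :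
    0 ≤ Q.ord (S.triv n Q * f) :=
  Geo.ord_mul_nonneg hf (S.ord_triv n Q)

theorem dictC_triv_inf (n : ℕ) : S.triv n S.inf = S.unif ^ n := by
  unfold Setup.triv
  rw [if_pos rfl]

theorem dictC_triv_of_ne (n : ℕ) {Q : Place Qb F} (hQ : Q ≠ S.inf) : S.triv n Q = 1 := by
  unfold Setup.triv
  rw [if_neg hQ]

theorem dictC_triv_add (n n' : ℕ) (Q : Place Qb F) :
    S.triv (n + n') Q = S.triv n Q * S.triv n' Q := by
  by_cases hQ : Q = S.inf
  · subst hQ
    rw [dictC_triv_inf, dictC_triv_inf, dictC_triv_inf, pow_add]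
  · rw [dictC_triv_of_ne _ hQ, dictC_triv_of_ne _ hQ, dictC_triv_of_ne _ hQ, one_mul]

theorem dictC_smul_triv (σ : GQ) (n : ℕ) (Q : Place Qb F) :
    S.ρ σ • S.triv n Q = S.triv n (S.ρ σ • Q) := by
  by_cases hQ : Q = S.inf
  · subst hQ
    rw [S.inf_fixed, dictC_triv_inf, smul_pow', S.unif_fixed]
  · have hQ' : S.ρ σ • Q ≠ S.inf := by
      intro h
      rw [← S.inf_fixed σ] at h
      exact hQ (MulAction.injective (S.ρ σ) h)
    rw [dictC_triv_of_ne _ hQ, dictC_triv_of_ne _ hQ', smul_one]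

/-- uniform description of the evaluation vectors. -/
theorem dictC_pair_X (n : ℕ) (Q : Place Qb F) (a : Fin (Φ.M n) → Qb) :
    pair a (Φ.X n Q) = ev Q (S.triv n Q * Φ.lin n a) := by
  rw [Φ.lin_apply, Finset.mul_sum, (dictC_ev_sum Q Finset.univ _ fun i _ =>
    dictC_ord_triv_mul n Q ((S.V n).smul_mem (a i) (Φ.dictC_phi_mem_V n i))).2]
  unfold pair
  refine Finset.sum_congr rfl fun i _ => ?_
  rw [mul_smul_comm, ev_smul, Φ.X_eq]

/-- `X n Q` is evaluation at `Q`. -/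
theorem pair_X (n : ℕ) {Q : Place Qb F} (hQ : Q ≠ S.inf) (a : Fin (Φ.M n) → Qb) :
    pair a (Φ.X n Q) = ev Q (Φ.lin n a) := by
  rw [Φ.dictC_pair_X, dictC_triv_of_ne _ hQ, one_mul]

/-- `X n ∞` is the coefficient of `unif ^ (-n)`. -/
theorem pair_X_inf (n : ℕ) (a : Fin (Φ.M n) → Qb) :
    pair a (Φ.X n S.inf) = ev S.inf (S.unif ^ n * Φ.lin n a) := by
  rw [Φ.dictC_pair_X, dictC_triv_inf]

/-- The evaluation vectors are multiplicative. -/
theorem pair_bil_X (n n' : ℕ) (Q : Place Qb F) (a : Fin (Φ.M n) → Qb) (b : Fin (Φ.M n') → Qb) :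
    pair (bil (Φ.scQ n n') a b) (Φ.X (n + n') Q) = pair a (Φ.X n Q) * pair b (Φ.X n' Q) := by
  rw [Φ.dictC_pair_X, Φ.dictC_pair_X, Φ.dictC_pair_X, Φ.lin_bil, dictC_triv_add,
    ← ev_mul Q (dictC_ord_triv_mul n Q (Φ.lin_mem_V n a))
      (dictC_ord_triv_mul n' Q (Φ.lin_mem_V n' b))]
  congr 1
  ring

/-- Galois action on the evaluation vectors. -/
theorem X_smul (σ : GQ) (n : ℕ) (Q : Place Qb F) :
    Φ.X n (S.ρ σ • Q) = fun i => σ (Φ.X n Q i) := by
  funext i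
  rw [Φ.X_eq, Φ.X_eq, ← S.base σ, ← ev_smul_smul, smul_mul', Φ.fixed, dictC_smul_triv]

theorem mem_cW (n : ℕ) (Z : Divisor Qb F) (a : Fin (Φ.M n) → Qb) :
    a ∈ Φ.cW n Z ↔ Φ.lin n a ∈ S.W n Z := Iff.rfl

theorem cW_zero (n : ℕ) : Φ.cW n 0 = ⊤ := by
  rw [eq_top_iff]
  intro a _
  rw [mem_cW, S.W_zero]
  exact Φ.lin_mem_V n a

theorem map_lin_cW (n : ℕ) {Z : Divisor Qb F} (hZ : 0 ≤ Z) : (Φ.cW n Z).map (Φ.lin n) = S.W n Z := by
  unfold cW
  rw [Submodule.map_comap_eq, Φ.range_lin]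
  exact inf_eq_right.2 (S.W_le_V n hZ)

theorem finrank_cW (n : ℕ) {Z : Divisor Qb F} (hZ : 0 ≤ Z) :
    Module.finrank Qb (Φ.cW n Z) = ell (Finsupp.single S.inf (n : ℤ) - Z) := by
  rw [(Submodule.equivMapOfInjective (Φ.lin n) (Φ.lin_injective n) (Φ.cW n Z)).finrank_eq,
    Φ.map_lin_cW n hZ]
  rfl

theorem M_eq (n : ℕ) : Φ.M n = ell (Finsupp.single S.inf (n : ℤ) : Divisor Qb F) := by
  have h := finrank_span_eq_card (Φ.li n)
  rw [Φ.span n, Fintype.card_fin] at h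
  exact h.symm

theorem dictC_map_lin_map₂ (n n' : ℕ) (W : Submodule Qb (Fin (Φ.M n) → Qb))
    (W' : Submodule Qb (Fin (Φ.M n') → Qb)) :
    (Submodule.map₂ (bil (Φ.scQ n n')) W W').map (Φ.lin (n + n')) =
      W.map (Φ.lin n) * W'.map (Φ.lin n') := by
  apply le_antisymm
  · rw [Submodule.map_le_iff_le_comap, Submodule.map₂_le]
    intro a ha b hb
    rw [Submodule.mem_comap, Φ.lin_bil]
    exact Submodule.mul_mem_mul (Submodule.mem_map_of_mem ha) (Submodule.mem_map_of_mem hb)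
  · rw [Submodule.mul_le]
    rintro _ ⟨a, ha, rfl⟩ _ ⟨b, hb, rfl⟩
    rw [← Φ.lin_bil]
    exact Submodule.mem_map_of_mem (Submodule.apply_mem_map₂ _ ha hb)

/-- products of subspaces. -/
theorem map₂_cW (n n' : ℕ) {Z Z' : Divisor Qb F} (hZ : 0 ≤ Z) (hZ' : 0 ≤ Z') :
    Submodule.map₂ (bil (Φ.scQ n n')) (Φ.cW n Z) (Φ.cW n' Z') =
      (S.W n Z * S.W n' Z').comap (Φ.lin (n + n')) := by
  have h := Φ.dictC_map_lin_map₂ n n' (Φ.cW n Z) (Φ.cW n' Z')
  rw [Φ.map_lin_cW n hZ, Φ.map_lin_cW n' hZ'] at h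
  rw [← h, Submodule.comap_map_eq_of_injective (Φ.lin_injective (n + n'))]

/-- general form: for arbitrary subspaces in coordinates. -/
theorem map_lin_map₂ (n n' : ℕ) (W : Submodule Qb (Fin (Φ.M n) → Qb))
    (W' : Submodule Qb (Fin (Φ.M n') → Qb)) :
    (Submodule.map₂ (bil (Φ.scQ n n')) W W').map (Φ.lin (n + n')) =
      W.map (Φ.lin n) * W'.map (Φ.lin n') := by
  exact Φ.dictC_map_lin_map₂ n n' W W'

theorem dictC_cW_add_pt (n : ℕ) {Z : Divisor Qb F} (Q : Place Qb F) (hQ : Z Q = 0) :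
    Φ.cW n (Z + pt Q) = Φ.cW n Z ⊓ kerF (Φ.X n Q) := by
  ext a
  rw [Submodule.mem_inf, mem_cW, mem_cW, mem_kerF, Φ.dictC_pair_X]
  have h := Geo.mem_L_sub_sumPt_iff (Finsupp.single S.inf (n : ℤ) - Z) {Q} (S.triv n)
    (fun Q' hQ' => by
      rw [Finset.mem_singleton] at hQ'
      subst hQ'
      rw [S.ord_triv, Finsupp.sub_apply, hQ, sub_zero])
    (fun Q' _ => S.triv_ne_zero n Q') (Φ.lin n a)
  have h2 : Geo.sumPt ({Q} : Finset (Place Qb F)) = pt Q := by
    unfold Geo.sumPt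
    rw [Finset.sum_singleton]
  rw [h2, sub_sub] at h
  unfold Setup.W
  rw [h]
  simp only [Finset.mem_singleton, forall_eq]

/-- `W n (Q)` is the kernel of the evaluation vector (also for `Q = ∞`). -/
theorem cW_pt (n : ℕ) (Q : Place Qb F) : Φ.cW n (pt Q) = kerF (Φ.X n Q) := by
  have h := Φ.dictC_cW_add_pt n (Z := 0) Q rfl
  rwa [zero_add, cW_zero, top_inf_eq] at h

/-- more generally: -/
theorem cW_add_pt (n : ℕ) {Z : Divisor Qb F} (Q : Place Qb F) (hQ : Z Q = 0) :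
    Φ.cW n (Z + pt Q) = Φ.cW n Z ⊓ kerF (Φ.X n Q) := by
  exact Φ.dictC_cW_add_pt n Q hQ

/-- Galois action on the subspaces. -/
theorem mem_cW_smul (σ : GQ) (n : ℕ) (Z : Divisor Qb F) (a : Fin (Φ.M n) → Qb) :
    (fun i => σ (a i)) ∈ Φ.cW n (S.ρ σ • Z) ↔ a ∈ Φ.cW n Z := by
  rw [mem_cW, mem_cW, ← Φ.smul_lin]
  constructor
  · intro h
    have h1 := S.smul_mem_W σ⁻¹ h
    rwa [← mul_smul, ← mul_smul, ← map_mul, inv_mul_cancel, map_one, one_smul, one_smul] at h1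
  · exact S.smul_mem_W σ

end Coord

end Fermat.Agent.MW
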