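import Fermat.Agent.MW.Dict.Coord
import Fermat.Agent.MW.Eng.Mult
import Fermat.Agent.MW.Eng.OpnBil

/-!
# MW / DICT 2: the engine applied to the curve.

* `Φ.fam n d = {cW n Z | Z ≥ 0, deg Z = d}` is a `ℚ`-closed family (K1 = `Setup.exists_eq_W`, `isQClosedFam_map₂_le`);
* `M_curve` : `OL (n+n') v (Z+Z') Q ≍ OL n v Z Q * OL n' v Z' Q`  (`M_abs`);
* `ZF_curve`, `mul_le_curve` : `|a b|_v ≍ |a|_v |b|_v`;
* `KT0_curve` : `OL (n+m) v (div l + n ∞) Q * |l|_v ≍ |l(Q)|_v * NL m v Q`  (`Setup.W_divOf`, `opn_bil`);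
* `L4_curve` : the volume of the basis `l φ_j` of `l V_m` is `≍ |l|_v ^ (M m)`  (`vol_bil`).
All constants are adelic (`AdC`), uniform in the divisors, the places and the absolute values.
-/

set_option autoImplicit false

noncomputable section

namespace Fermat.Agent.MW

open AlgebraicCurve Fermat.Agent.Lib.RR Fermat.Agent.Lib.PlaceEval

variable {F : Type*} [Field F] [Algebra Qb F] [IsFF Qb F] {S : Setup F} (Φ : Coord S)

namespace Coord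

/-- The family of the subspaces `cW n Z`, `Z ≥ 0` of degree `d`. -/
def fam (n d : ℕ) : Set (Submodule Qb (Fin (Φ.M n) → Qb)) :=
  {W | ∃ Z : Divisor Qb F, 0 ≤ Z ∧ Divisor.degree Z = d ∧ W = Φ.cW n Z}

theorem cW_mem_fam (n d : ℕ) {Z : Divisor Qb F} (hZ : 0 ≤ Z) (hd : Divisor.degree Z = d) :
    Φ.cW n Z ∈ Φ.fam n d := ⟨Z, hZ, hd, rfl⟩

/-- `finrank (cW n Z) = n + 1 - g - d`. -/
theorem finrank_cW' (n d : ℕ) (hn : d + 2 * S.g ≤ n + 1) {Z : Divisor Qb F} (hZ : 0 ≤ Z)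
    (hd : Divisor.degree Z = d) : Module.finrank Qb (Φ.cW n Z) = n + 1 - S.g - d := by
  have h1 := Φ.finrank_cW n hZ
  have h2 := S.finrank_W n Z (by rw [hd]; omega)
  have h3 : ell (Finsupp.single S.inf (n : ℤ) - Z) = Module.finrank Qb (S.W n Z) := rfl
  rw [h1, h3]
  rw [hd] at h2
  omega

theorem Fam_finrank_map (n : ℕ) (W : Submodule Qb (Fin (Φ.M n) → Qb)) :
    Module.finrank Qb (W.map (Φ.lin n)) = Module.finrank Qb W :=
  (Submodule.equivMapOfInjective (Φ.lin n) (Φ.lin_injective n) W).finrank_eq.symm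

theorem Fam_finrank_map₂ (n n₂ : ℕ) (W : Submodule Qb (Fin (Φ.M n) → Qb)) :
    Module.finrank Qb (Submodule.map₂ (bil (Φ.scQ n₂ n)) ⊤ W) =
      Module.finrank Qb (W.map (Φ.lin n) * S.V n₂ : Submodule Qb F) := by
  rw [← Φ.Fam_finrank_map (n₂ + n), Φ.map_lin_map₂, Submodule.map_top, Φ.range_lin, mul_comm]

/-- The description of the family by rank conditions.  `n₂ = n + 2 g`.
(⊆) `finrank_cW'`, `map_lin_map₂`, `Setup.W_mul_V` (+ `mul_comm`), `Setup.finrank_W`; (⊇) `Setup.exists_eq_W` applied to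
`W.map (Φ.lin n)`; `finrank` is preserved by the injective maps `Φ.lin _` (`LinearMap.finrank_map_eq'`-type lemma /
`Submodule.equivMapOfInjective`). -/
theorem fam_eq (n d : ℕ) (hn : d + 3 * S.g ≤ n) :
    Φ.fam n d = {W : Submodule Qb (Fin (Φ.M n) → Qb) | Module.finrank Qb W = n + 1 - S.g - d ∧
      Module.finrank Qb (Submodule.map₂ (bil (Φ.scQ (n + 2 * S.g) n)) ⊤ W) ≤
        n + (n + 2 * S.g) + 1 - S.g - d} := by
  ext W
  constructor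
  · rintro ⟨Z, hZ, hd, rfl⟩
    refine ⟨Φ.finrank_cW' n d (by omega) hZ hd, ?_⟩
    rw [Φ.Fam_finrank_map₂, Φ.map_lin_cW n hZ,
      S.W_mul_V n (n + 2 * S.g) Z (by rw [hd]; omega) (by rw [hd]; push_cast; omega)]
    have h := S.finrank_W (n + (n + 2 * S.g)) Z (by rw [hd]; push_cast; omega)
    rw [hd] at h
    push_cast at h
    omega
  · rintro ⟨h1, h2⟩
    rw [Φ.Fam_finrank_map₂] at h2
    have hle : W.map (Φ.lin n) ≤ S.V n := by
      rw [← Φ.range_lin n]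
      exact LinearMap.map_le_range
    have hdim : (Module.finrank Qb (W.map (Φ.lin n)) : ℤ) = n + 1 - S.g - d := by
      rw [Φ.Fam_finrank_map, h1]
      omega
    have hrank : (Module.finrank Qb (W.map (Φ.lin n) * S.V (n + 2 * S.g) : Submodule Qb F) : ℤ) ≤
        n + (n + 2 * S.g : ℕ) + 1 - S.g - d := by
      omega
    obtain ⟨Z, hZ, hd, hW⟩ := S.exists_eq_W n (n + 2 * S.g) d (W.map (Φ.lin n)) hle hdim hn
      (by omega) hrank
    refine ⟨Z, hZ, hd, ?_⟩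
    unfold cW
    rw [← hW, Submodule.comap_map_eq_of_injective (Φ.lin_injective n)]

/-- **Closedness of the family.** -/
theorem fam_closed (n d : ℕ) (hn : d + 3 * S.g ≤ n) :
    IsQClosedFam (n + 1 - S.g - d) (Φ.fam n d) := by
  rw [Φ.fam_eq n d hn]
  exact isQClosedFam_map₂_le _ _ _

/-- The product of two members. -/
theorem map₂_cW_eq (n n' d d' : ℕ) (hn : d + 2 * S.g ≤ n) (hn' : d' + 2 * S.g ≤ n')
    (h : (n - d) + 2 * S.g ≤ (n' - d') + 1 ∨ (n' - d') + 2 * S.g ≤ (n - d) + 1)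
    {Z Z' : Divisor Qb F} (hZ : 0 ≤ Z) (hd : Divisor.degree Z = d) (hZ' : 0 ≤ Z')
    (hd' : Divisor.degree Z' = d') :
    Submodule.map₂ (bil (Φ.scQ n n')) (Φ.cW n Z) (Φ.cW n' Z') = Φ.cW (n + n') (Z + Z') := by
  rw [Φ.map₂_cW n n' hZ hZ']
  have hW : S.W n Z * S.W n' Z' = S.W (n + n') (Z + Z') := by
    rcases h with h | h
    · exact S.W_mul_W n n' Z Z' (by rw [hd]; omega) (by rw [hd, hd']; omega)
    · rw [mul_comm, S.W_mul_W n' n Z' Z (by rw [hd']; omega) (by rw [hd, hd']; omega),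
        add_comm n' n, add_comm Z' Z]
  rw [hW]
  rfl

/-- **(M) on the curve.** -/
theorem M_curve (n n' d d' : ℕ) (hn : d + 3 * S.g ≤ n) (hn' : d' + 3 * S.g ≤ n')
    (h : (n - d) + 2 * S.g ≤ (n' - d') + 1 ∨ (n' - d') + 2 * S.g ≤ (n - d) + 1) :
    ∃ c : AdC, ∀ (A : AbsFam) (v : Plc) (Z Z' : Divisor Qb F) (Q : Place Qb F), 0 ≤ Z →
      Divisor.degree Z = d → 0 ≤ Z' → Divisor.degree Z' = d' →
      Φ.OL A (n + n') v (Z + Z') Q ≤ c.c v * (Φ.OL A n v Z Q * Φ.OL A n' v Z' Q) ∧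
      Φ.OL A n v Z Q * Φ.OL A n' v Z' Q ≤ c.c v * Φ.OL A (n + n') v (Z + Z') Q := by
  have hρ : ∀ W₁ ∈ Φ.fam n d, ∀ W₂ ∈ Φ.fam n' d',
      Module.finrank Qb (Submodule.map₂ (bil (Φ.scQ n n')) W₁ W₂)
        = n + n' + 1 - S.g - (d + d') := by
    rintro _ ⟨Z, hZ, hd, rfl⟩ _ ⟨Z', hZ', hd', rfl⟩
    rw [Φ.map₂_cW_eq n n' d d' (by omega) (by omega) h hZ hd hZ' hd']
    exact Φ.finrank_cW' (n + n') (d + d') (by omega) (add_nonneg hZ hZ')
      (by rw [map_add, hd, hd']; push_cast; rfl)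
  obtain ⟨c, hc⟩ := M_abs (Φ.scQ n n') (Φ.fam_closed n d hn) (Φ.fam_closed n' d' hn') hρ
  refine ⟨c, fun A v Z Z' Q hZ hd hZ' hd' => ?_⟩
  have h1 := hc A v (Φ.cW n Z) (Φ.cW_mem_fam n d hZ hd) (Φ.cW n' Z') (Φ.cW_mem_fam n' d' hZ' hd')
    (Φ.X n Q) (Φ.X n' Q) (Φ.X (n + n') Q) (fun s _ s' _ => Φ.pair_bil_X n n' Q s s')
  rw [Φ.map₂_cW_eq n n' d d' (by omega) (by omega) h hZ hd hZ' hd'] at h1
  exact h1

/-- `OL n v 0 Q ≍ NL n v Q`. -/
theorem OL_zero (n : ℕ) : ∃ c : AdC, ∀ (A : AbsFam) (v : Plc) (Q : Place Qb F),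
    Φ.OL A n v 0 Q ≤ c.c v * Φ.NL A n v Q ∧ Φ.NL A n v Q ≤ Φ.OL A n v 0 Q := by
  refine ⟨AdC.arch (Φ.M n + 1) (Nat.le_add_left 1 _), fun A v Q => ?_⟩
  unfold OL NL
  rw [Φ.cW_zero]
  refine ⟨?_, nrm_le_opn_top (A.abv v) (Φ.X n Q)⟩
  have h1 := opn_le_nrm (A.abv v) (⊤ : Submodule Qb (Fin (Φ.M n) → Qb)) (Φ.X n Q)
  rw [Fintype.card_fin] at h1
  have h2 : kap (A.abv v) (Φ.M n) ≤ (AdC.arch (Φ.M n + 1) (Nat.le_add_left 1 _)).c v :=
    (kap_le_kap_succ _ _).trans (kap_le_arch A v _ _)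
  exact h1.trans (mul_le_mul_of_nonneg_right h2 (nrm_nonneg _ _))

theorem ZF_curve (n n' : ℕ) : ∃ c : AdC, ∀ (A : AbsFam) (v : Plc) (a : Fin (Φ.M n) → Qb)
    (b : Fin (Φ.M n') → Qb),
    nrm (A.abv v) a * nrm (A.abv v) b ≤ c.c v * nrm (A.abv v) (bil (Φ.scQ n n') a b) :=
  ZF_abs _ (Φ.bil_ne_zero n n')

theorem mul_le_curve (n n' : ℕ) : ∃ c : AdC, ∀ (A : AbsFam) (v : Plc) (a : Fin (Φ.M n) → Qb)
    (b : Fin (Φ.M n') → Qb),
    nrm (A.abv v) (bil (Φ.scQ n n') a b) ≤ c.c v * (nrm (A.abv v) a * nrm (A.abv v) b) :=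
  bil_le _

/-- `cW (n+m) (div l + n ∞) = l * (everything)`. -/
theorem cW_divOf (n m : ℕ) (a : Fin (Φ.M n) → Qb) (ha : a ≠ 0) :
    Φ.cW (n + m) (divOf (Φ.lin n a) + Finsupp.single S.inf (n : ℤ)) =
      (⊤ : Submodule Qb (Fin (Φ.M m) → Qb)).map (bil (Φ.scQ n m) a) := by
  have hl : Φ.lin n a ≠ 0 := fun h => ha (Φ.lin_injective n (by rw [h, map_zero]))
  ext w
  rw [Φ.mem_cW, S.W_divOf n m hl, Submodule.mem_span_singleton_mul, Submodule.mem_map]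
  constructor
  · rintro ⟨z, hz, hzw⟩
    refine ⟨Φ.crd m z, Submodule.mem_top, Φ.lin_injective (n + m) ?_⟩
    rw [Φ.lin_bil, Φ.lin_crd hz, hzw]
  · rintro ⟨b, -, rfl⟩
    exact ⟨Φ.lin m b, Φ.lin_mem_V m b, (Φ.lin_bil n m a b).symm⟩

/-- **(KT0)** -/
theorem KT0_curve (n m : ℕ) : ∃ c : AdC, ∀ (A : AbsFam) (v : Plc) (a : Fin (Φ.M n) → Qb)
    (Q : Place Qb F), a ≠ 0 →
    Φ.OL A (n + m) v (divOf (Φ.lin n a) + Finsupp.single S.inf (n : ℤ)) Q * nrm (A.abv v) a ≤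
        c.c v * (A.abv v (pair a (Φ.X n Q)) * Φ.NL A m v Q) ∧
    A.abv v (pair a (Φ.X n Q)) * Φ.NL A m v Q ≤
        c.c v * (Φ.OL A (n + m) v (divOf (Φ.lin n a) + Finsupp.single S.inf (n : ℤ)) Q *
          nrm (A.abv v) a) := by
  obtain ⟨c, hc⟩ := opn_bil (Φ.scQ n m) (Φ.bil_ne_zero n m)
  refine ⟨c * AdC.arch (Φ.M m + 1) (Nat.le_add_left 1 _), fun A v a Q ha => ?_⟩
  obtain ⟨h1, h2⟩ := hc A v a ⊤ (Φ.X n Q) (Φ.X m Q) (Φ.X (n + m) Q) ha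
    (fun s' _ => Φ.pair_bil_X n m Q a s')
  rw [AdC.mul_c]
  unfold OL NL
  rw [Φ.cW_divOf n m a ha]
  have hk := kap_le_arch A v (Φ.M m + 1) (Nat.le_add_left 1 _)
  have hk1 := (AdC.arch (Φ.M m + 1) (Nat.le_add_left 1 _)).one_le v
  have hk2 : kap (A.abv v) (Fintype.card (Fin (Φ.M m))) ≤ kap (A.abv v) (Φ.M m + 1) := by
    rw [Fintype.card_fin]
    unfold kap
    split_ifs
    · exact le_rfl
    · push_cast; linarith
  have h3 := opn_le_nrm (A.abv v) ⊤ (Φ.X m Q)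
  have h4 := nrm_le_opn_top (A.abv v) (Φ.X m Q)
  have hx : 0 ≤ A.abv v (pair a (Φ.X n Q)) := (A.abv v).nonneg _
  have hN : 0 ≤ nrm (A.abv v) (Φ.X m Q) := nrm_nonneg _ _
  have hcp := c.pos v
  have ho := opn_nonneg (A.abv v) ((⊤ : Submodule Qb (Fin (Φ.M m) → Qb)).map (bil (Φ.scQ n m) a))
    (Φ.X (n + m) Q)
  have hna : 0 ≤ nrm (A.abv v) a := nrm_nonneg _ _
  constructor
  · refine h1.trans ?_
    rw [mul_assoc]
    refine mul_le_mul_of_nonneg_left ?_ hcp.le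
    calc A.abv v (pair a (Φ.X n Q)) * opn (A.abv v) ⊤ (Φ.X m Q)
        ≤ A.abv v (pair a (Φ.X n Q)) *
          ((AdC.arch (Φ.M m + 1) (Nat.le_add_left 1 _)).c v * nrm (A.abv v) (Φ.X m Q)) :=
          mul_le_mul_of_nonneg_left
            (h3.trans (mul_le_mul_of_nonneg_right (hk2.trans hk) hN)) hx
      _ = _ := by ring
  · calc A.abv v (pair a (Φ.X n Q)) * nrm (A.abv v) (Φ.X m Q)
        ≤ A.abv v (pair a (Φ.X n Q)) * opn (A.abv v) ⊤ (Φ.X m Q) :=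
          mul_le_mul_of_nonneg_left h4 hx
      _ ≤ _ := h2
      _ ≤ _ := by
          refine mul_le_mul_of_nonneg_right ?_ (mul_nonneg ho hna)
          exact le_mul_of_one_le_right hcp.le hk1

/-- **(L4)** the volume of the basis `l φ_j` of `l V_m`. -/
theorem L4_curve (n m : ℕ) : ∃ c : AdC, ∀ (A : AbsFam) (v : Plc) (a : Fin (Φ.M n) → Qb),
    vol (A.abv v) (fun j : Fin (Φ.M m) => bil (Φ.scQ n m) a (Pi.single j 1)) ≤
        c.c v * nrm (A.abv v) a ^ Φ.M m ∧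
    nrm (A.abv v) a ^ Φ.M m ≤
        c.c v * vol (A.abv v) (fun j : Fin (Φ.M m) => bil (Φ.scQ n m) a (Pi.single j 1)) := by
  obtain ⟨c, hc⟩ := vol_bil (Φ.scQ n m) (Φ.bil_ne_zero n m) (Φ.M m)
  refine ⟨c, fun A v a => ?_⟩
  have hli : LinearIndependent Qb (fun j : Fin (Φ.M m) => (Pi.single j 1 : Fin (Φ.M m) → Qb)) := by
    have h0 := (Pi.basisFun Qb (Fin (Φ.M m))).linearIndependent
    have h1 : (⇑(Pi.basisFun Qb (Fin (Φ.M m)))) =
        (fun j : Fin (Φ.M m) => (Pi.single j 1 : Fin (Φ.M m) → Qb)) := by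
      funext j
      exact Pi.basisFun_apply Qb (Fin (Φ.M m)) j
    rwa [h1] at h0
  have hvol : vol (A.abv v) (fun j : Fin (Φ.M m) => (Pi.single j 1 : Fin (Φ.M m) → Qb)) = 1 := by
    rw [vol_eq_det (A.abv v) (Equiv.refl _)]
    have h1 : (Matrix.of fun i j : Fin (Φ.M m) => (Pi.single i 1 : Fin (Φ.M m) → Qb)
        ((Equiv.refl _) j)) = 1 := by
      ext i j
      rw [Matrix.of_apply, Equiv.refl_apply, Matrix.one_apply, Pi.single_apply]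
      exact if_congr eq_comm rfl rfl
    rw [h1, Matrix.det_one, map_one]
  have h := hc A v a _ hli
  rw [hvol, mul_one] at h
  exact h

end Coord

end Fermat.Agent.MW
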